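import Fermat.Agent.S16.H136.QS
import Fermat.Agent.S16.H377.SkelFR
import Fermat.Agent.S16.H128.L1

/-!
# S16 / WP U4 instantiation (helper136), part 2: the concrete level data

`Lk k` : `q`-series of level one forms of weight `k`;
`Mpk p k` : pairs (`q`-series of `F`, `q`-series of `F^`) for `F ∈ M_k(Γ₀(p))`;
closure properties needed by `H373.LevelData`.
-/

set_option autoImplicit false

noncomputable section

namespace Fermat.Agent.S16.H136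

open UpperHalfPlane ModularForm CongruenceSubgroup MatrixGroups ModularFormClass EisensteinSeries
open Fermat.Agent.S20 (MF SF)
open Fermat.Agent.S16
open Fermat.Agent.S16.H260 (Nice)
open scoped Manifold

local notation "𝕢" => Function.Periodic.qParam
local notation "Δ" => ModularForm.discriminant

/-- `MF` is antitone in the group. -/
theorem mem_MF_of_le {Γ Γ' : Subgroup SL(2, ℤ)} (h : Γ ≤ Γ') {k : ℤ} {f : ℍ → ℂ}
    (hf : f ∈ MF Γ' k) : f ∈ MF Γ k :=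
  ⟨hf.1, fun γ hγ => hf.2.1 γ (h hγ), hf.2.2⟩

theorem mem_MF_Gamma0_of_top {p : ℕ} {k : ℤ} {f : ℍ → ℂ} (hf : f ∈ MF ⊤ k) :
    f ∈ MF (Gamma0 p) k :=
  mem_MF_of_le le_top hf

theorem nice_top {k : ℤ} {f : ℍ → ℂ} (hf : f ∈ MF ⊤ k) : Nice f :=
  H260.nice_of_mem_MF_top hf

theorem nice_Gamma0 {p : ℕ} {k : ℤ} {f : ℍ → ℂ} (hf : f ∈ MF (Gamma0 p) k) : Nice f :=
  H260.nice_of_mem_MF_Gamma0 hf

/-- `q`-series of level one forms of weight `k`. -/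
def Lk (k : ℕ) : Submodule ℂ (PowerSeries ℂ) where
  carrier := {A | ∃ H ∈ MF (⊤ : Subgroup SL(2, ℤ)) (k : ℤ), qs H = A}
  zero_mem' := ⟨0, Submodule.zero_mem _, qs_zero⟩
  add_mem' := by
    rintro _ _ ⟨H₁, h₁, rfl⟩ ⟨H₂, h₂, rfl⟩
    exact ⟨H₁ + H₂, Submodule.add_mem _ h₁ h₂, qs_add (nice_top h₁) (nice_top h₂)⟩
  smul_mem' := by
    rintro c _ ⟨H, h, rfl⟩
    exact ⟨c • H, Submodule.smul_mem _ c h, qs_smul (nice_top h) c⟩

theorem mem_Lk {k : ℕ} {A : PowerSeries ℂ} :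
    A ∈ Lk k ↔ ∃ H ∈ MF (⊤ : Subgroup SL(2, ℤ)) (k : ℤ), qs H = A := Iff.rfl

section Level

variable (p : ℕ) [hpp : Fact p.Prime]

theorem hat_zero' (k : ℤ) : hat p k (0 : ℍ → ℂ) = 0 := by
  have := H377.FR.hat_smul p k 0 (0 : ℍ → ℂ)
  simpa using this

/-- pairs (`q`-series of `F`, `q`-series of `F^`) for `F ∈ M_k(Γ₀(p))`. -/
def Mpk (k : ℕ) : Submodule ℂ (H373.Pair ℂ) where
  carrier := {x | ∃ F ∈ MF (Gamma0 p) (k : ℤ), qs F = x.1 ∧ qs (hat p k F) = x.2}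
  zero_mem' := ⟨0, Submodule.zero_mem _, qs_zero, by rw [hat_zero']; exact qs_zero⟩
  add_mem' := by
    rintro x y ⟨F₁, h₁, e₁, e₁'⟩ ⟨F₂, h₂, e₂, e₂'⟩
    refine ⟨F₁ + F₂, Submodule.add_mem _ h₁ h₂, ?_, ?_⟩
    · rw [qs_add (nice_Gamma0 h₁) (nice_Gamma0 h₂), e₁, e₂]; rfl
    · rw [H377.FR.hat_add, qs_add (nice_Gamma0 (H377.FR.hat_mem_MF p h₁))
        (nice_Gamma0 (H377.FR.hat_mem_MF p h₂)), e₁', e₂']; rfl
  smul_mem' := by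
    rintro c x ⟨F, h, e, e'⟩
    refine ⟨c • F, Submodule.smul_mem _ c h, ?_, ?_⟩
    · rw [qs_smul (nice_Gamma0 h), e]; rfl
    · rw [H377.FR.hat_smul, qs_smul (nice_Gamma0 (H377.FR.hat_mem_MF p h)), e']; rfl

theorem mem_Mpk {k : ℕ} {x : H373.Pair ℂ} :
    x ∈ Mpk p k ↔ ∃ F ∈ MF (Gamma0 p) (k : ℤ), qs F = x.1 ∧ qs (hat p k F) = x.2 := Iff.rfl

theorem hat_one : hat p 0 (1 : ℍ → ℂ) = 1 := by
  funext z
  rw [H377.FR.hat_apply]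
  simp

theorem one_mem_Mpk : (1 : H373.Pair ℂ) ∈ Mpk p 0 := by
  refine ⟨1, one_mem_MF _, qs_one, ?_⟩
  rw [Nat.cast_zero, hat_one]
  exact qs_one

theorem mul_mem_Mpk {k k' : ℕ} {x y : H373.Pair ℂ} (hx : x ∈ Mpk p k) (hy : y ∈ Mpk p k') :
    x * y ∈ Mpk p (k + k') := by
  obtain ⟨F₁, h₁, e₁, e₁'⟩ := hx
  obtain ⟨F₂, h₂, e₂, e₂'⟩ := hy
  refine ⟨F₁ * F₂, ?_, ?_, ?_⟩
  · rw [Nat.cast_add]
    exact mul_mem_MF h₁ h₂
  · rw [qs_mul (nice_Gamma0 h₁) (nice_Gamma0 h₂), e₁, e₂]; rfl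
  · rw [Nat.cast_add, H377.FR.hat_mul, qs_mul (nice_Gamma0 (H377.FR.hat_mem_MF p h₁))
      (nice_Gamma0 (H377.FR.hat_mem_MF p h₂)), e₁', e₂']; rfl

theorem lift_mem_Mpk {k : ℕ} {H : PowerSeries ℂ} (hH : H ∈ Lk k) :
    H373.lift p hpp.out.ne_zero k H ∈ Mpk p k := by
  obtain ⟨h, hh, rfl⟩ := hH
  refine ⟨h, mem_MF_Gamma0_of_top hh, rfl, ?_⟩
  rw [H377.FR.hat_levelOne p hh, qs_smul (nice_Gamma0 (H377.FR.Vp_mem_MF p hh)),
    qs_Vp (nice_top hh) hpp.out.ne_zero, zpow_natCast]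
  rfl

theorem tr_mem_Lk {k : ℕ} {x : H373.Pair ℂ} (hx : x ∈ Mpk p k) : H373.tr p k x ∈ Lk k := by
  obtain ⟨F, hF, e, e'⟩ := hx
  have hp0 : (p : ℂ) ≠ 0 := by exact_mod_cast hpp.out.ne_zero
  have hhat := H377.FR.hat_mem_MF p hF
  have hU : Nice (heckeU (k : ℤ) p (hat p k F)) := (nice_Gamma0 hhat).heckeU _ _
  refine ⟨Fermat.Agent.S16.tr p k F, H377.FR.tr_mem_MF p hF, ?_⟩
  rw [H373.tr_apply, Fermat.Agent.S16.tr, qs_add (nice_Gamma0 hF) (hU.smul _), qs_smul hU,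
    qs_heckeU (nice_Gamma0 hhat) _ hpp.out.ne_zero, e, e']
  congr 2
  rw [zpow_sub₀ hp0, zpow_one, zpow_natCast, inv_pow, div_eq_mul_inv]

end Level

end Fermat.Agent.S16.H136
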