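import Fermat.Agent.S16.H373.Main
import Fermat.Agent.S16.H260.QCalc
import Fermat.Agent.S20.C0_helper516

/-!
# S16 / WP U4 instantiation (helper136), part 1: `q`-series of modular forms at function level

Multiplicativity of `MF Γ k`, and the `q`-expansion (as `PowerSeries ℂ`) of sums, products,
`U_p f`, `V_p f`, together with injectivity of the `q`-expansion on nice functions.
-/

set_option autoImplicit false

noncomputable section

namespace Fermat.Agent.S16.H136

open UpperHalfPlane ModularForm CongruenceSubgroup MatrixGroups ModularFormClass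
open Fermat.Agent.S20 (MF SF)
open Fermat.Agent.S16
open Fermat.Agent.S16.H260 (Nice)
open scoped Manifold

local notation "𝕢" => Function.Periodic.qParam

/-- The `q`-expansion (period `1`) as a power series. -/
abbrev qs (f : ℍ → ℂ) : PowerSeries ℂ := qExpansion 1 f

theorem coeff_qs (f : ℍ → ℂ) (n : ℕ) : (qs f).coeff n = qCoeff f n := rfl

theorem mul_mem_MF {Γ : Subgroup SL(2, ℤ)} {a b : ℤ} {f g : ℍ → ℂ}
    (hf : f ∈ MF Γ a) (hg : g ∈ MF Γ b) : f * g ∈ MF Γ (a + b) := by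
  refine ⟨hf.1.mul hg.1, fun γ hγ => ?_, fun γ => ?_⟩
  · rw [ModularForm.mul_slash_SL2, hf.2.1 γ hγ, hg.2.1 γ hγ]
  · rw [ModularForm.mul_slash_SL2]
    exact (hf.2.2 γ).mul (hg.2.2 γ)

theorem one_mem_MF (Γ : Subgroup SL(2, ℤ)) : (1 : ℍ → ℂ) ∈ MF Γ 0 := by
  refine ⟨mdifferentiable_const, fun γ _ => ?_, fun γ => ?_⟩
  · exact ModularForm.is_invariant_one γ
  · rw [ModularForm.is_invariant_one γ]
    exact Filter.const_boundedAtFilter _ (1 : ℂ)

theorem pow_mem_MF {Γ : Subgroup SL(2, ℤ)} {a : ℤ} {f : ℍ → ℂ} (hf : f ∈ MF Γ a) (n : ℕ) :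
    f ^ n ∈ MF Γ (a * n) := by
  induction n with
  | zero => simpa using one_mem_MF Γ
  | succ n ih =>
    rw [pow_succ]
    have := mul_mem_MF ih hf
    have e : a * (n : ℤ) + a = a * ((n + 1 : ℕ) : ℤ) := by push_cast; ring
    rwa [e] at this

theorem nice_one : Nice (1 : ℍ → ℂ) :=
  H260.nice_of_mem_MF_top (one_mem_MF ⊤)

theorem nice_add {f g : ℍ → ℂ} (hf : Nice f) (hg : Nice g) : Nice (f + g) where
  per := by
    intro w
    have h1 := hf.per w
    have h2 := hg.per w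
    simp only [Function.comp_apply, Pi.add_apply] at h1 h2 ⊢
    rw [h1, h2]
  hol := hf.hol.add hg.hol
  bdd := hf.bdd.add hg.bdd

theorem nice_pow {f : ℍ → ℂ} (hf : Nice f) (n : ℕ) : Nice (f ^ n) := by
  induction n with
  | zero => simpa using nice_one
  | succ n ih =>
    rw [pow_succ]
    exact ih.mul hf

theorem qs_add {f g : ℍ → ℂ} (hf : Nice f) (hg : Nice g) : qs (f + g) = qs f + qs g :=
  qExpansion_add hf.analyticAt hg.analyticAt

theorem qs_smul {f : ℍ → ℂ} (hf : Nice f) (c : ℂ) : qs (c • f) = c • qs f :=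
  qExpansion_smul hf.analyticAt c

theorem qs_mul {f g : ℍ → ℂ} (hf : Nice f) (hg : Nice g) : qs (f * g) = qs f * qs g :=
  qExpansion_mul hf.analyticAt hg.analyticAt

theorem qs_one : qs (1 : ℍ → ℂ) = 1 := qExpansion_one 1

theorem qs_zero : qs (0 : ℍ → ℂ) = 0 := qExpansion_zero 1

theorem qs_pow {f : ℍ → ℂ} (hf : Nice f) (n : ℕ) : qs (f ^ n) = qs f ^ n := by
  induction n with
  | zero => simpa using qs_one
  | succ n ih => rw [pow_succ, qs_mul (nice_pow hf n) hf, ih, pow_succ]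

/-- Value of a nice function from its `q`-series. -/
theorem tsum_qs {f : ℍ → ℂ} (hf : Nice f) (z : ℍ) :
    ∑' n : ℕ, (qs f).coeff n • 𝕢 1 z ^ n = f z :=
  (hf.hasSum z).tsum_eq

theorem qs_injective {f g : ℍ → ℂ} (hf : Nice f) (hg : Nice g) (h : qs f = qs g) : f = g := by
  funext z
  rw [← tsum_qs hf z, ← tsum_qs hg z, h]

theorem qs_heckeU {f : ℍ → ℂ} (hf : Nice f) (k : ℤ) {p : ℕ} (hp : p ≠ 0) :
    qs (ModularForm.heckeU k p f) = H373.opU p (qs f) := by
  ext n
  rw [H373.coeff_opU, coeff_qs, coeff_qs, H260.qCoeff_heckeU hf k hp, mul_comm]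

theorem qs_Vp {F : ℍ → ℂ} (hF : Nice F) {p : ℕ} (hp : p ≠ 0) :
    qs (Vp p F) = PowerSeries.expand p hp (qs F) := by
  ext n
  rw [coeff_qs, (H260.qCoeff_Vp hF (Nat.pos_of_ne_zero hp)).2 n, PowerSeries.coeff_expand]
  rfl

end Fermat.Agent.S16.H136
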