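import Fermat.Agent.S16.H136.Level

/-!
# S16 / WP U4 (helper136): instantiation of `H373.u4_core`, exact skeleton statement `U4`

`levelData p` : the abstract level data of `H373.LevelData` over `K = ℂ`, `O = ℤ`, built from the
landed work packages FR (`H377.FR`), L1 (`H128`) and the `q`-expansion calculus (`H260`).

`U4` : no `G ∈ M₂(Γ₀(p))`, `p ≡ 7 mod 8`, has integral `q`-expansion `≡ odd constant mod 8`.
-/

set_option autoImplicit false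

noncomputable section

namespace Fermat.Agent.S16.H136

open UpperHalfPlane ModularForm CongruenceSubgroup MatrixGroups ModularFormClass EisensteinSeries
open Fermat.Agent.S20 (MF SF)
open Fermat.Agent.S16
open Fermat.Agent.S16.H260 (Nice)
open scoped Manifold ArithmeticFunction.sigma

local notation "𝕢" => Function.Periodic.qParam
local notation "Δ" => ModularForm.discriminant

/-- The subring `ℤ ⊆ ℂ`. -/
def ZC : Subring ℂ := (Int.castRingHom ℂ).range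

theorem intCast_mem_ZC (m : ℤ) : (m : ℂ) ∈ ZC := ⟨m, rfl⟩

theorem natCast_mem_ZC (m : ℕ) : (m : ℂ) ∈ ZC := ⟨m, by simp⟩

theorem exists_of_mem_ZC {x : ℂ} (hx : x ∈ ZC) : ∃ m : ℤ, x = (m : ℂ) := by
  obtain ⟨m, hm⟩ := hx
  exact ⟨m, hm.symm⟩

theorem two_inv_not_mem_ZC : (2 : ℂ)⁻¹ ∉ ZC := by
  rintro ⟨m, hm⟩
  have h2 : (2 : ℂ) * (m : ℂ) = 1 := by
    have : ((Int.castRingHom ℂ) m : ℂ) = (m : ℂ) := rfl
    rw [← this, hm]
    norm_num
  have h3 : (2 : ℤ) * m = 1 := by exact_mod_cast h2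
  omega

theorem coeff_ofNat_mul (a : ℕ) [a.AtLeastTwo] (F : PowerSeries ℂ) (n : ℕ) :
    PowerSeries.coeff n ((OfNat.ofNat a : PowerSeries ℂ) * F)
      = (OfNat.ofNat a : ℂ) * PowerSeries.coeff n F := by
  have h : (OfNat.ofNat a : PowerSeries ℂ) = PowerSeries.C (OfNat.ofNat a : ℂ) :=
    (map_ofNat (PowerSeries.C (R := ℂ)) a).symm
  rw [h, PowerSeries.coeff_C_mul]

/-! ### The Eisenstein series -/

/-- `∑ σ₃(n) qⁿ`. -/
def S3 : PowerSeries ℂ := PowerSeries.mk fun n => ((ArithmeticFunction.sigma 3 n : ℕ) : ℂ)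

/-- `∑ σ₅(n) qⁿ`. -/
def S5 : PowerSeries ℂ := PowerSeries.mk fun n => ((ArithmeticFunction.sigma 5 n : ℕ) : ℂ)

/-- `(σ₃(n) - σ₅(n)) / 2`. -/
def rInt (n : ℕ) : ℤ :=
  ((ArithmeticFunction.sigma 3 n : ℤ) - (ArithmeticFunction.sigma 5 n : ℤ)) / 2

/-- `∑ (σ₃(n) - σ₅(n))/2 qⁿ`. -/
def Rs : PowerSeries ℂ := PowerSeries.mk fun n => (rInt n : ℂ)

theorem even_sigma_sub (n : ℕ) :
    Even ((ArithmeticFunction.sigma 3 n : ℤ) - (ArithmeticFunction.sigma 5 n : ℤ)) := by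
  rw [ArithmeticFunction.sigma_apply, ArithmeticFunction.sigma_apply]
  push_cast
  rw [← Finset.sum_sub_distrib]
  refine Finset.even_sum _ fun d _ => ?_
  rw [Int.even_sub, Int.even_pow, Int.even_pow]
  simp

theorem two_mul_rInt (n : ℕ) :
    2 * rInt n = (ArithmeticFunction.sigma 3 n : ℤ) - (ArithmeticFunction.sigma 5 n : ℤ) := by
  unfold rInt
  exact Int.mul_ediv_cancel' (even_iff_two_dvd.mp (even_sigma_sub n))

theorem S3_eq : S3 = S5 + 2 * Rs := by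
  ext n
  rw [map_add, coeff_ofNat_mul]
  simp only [S3, S5, Rs, PowerSeries.coeff_mk]
  have := congrArg (Int.cast : ℤ → ℂ) (two_mul_rInt n)
  push_cast at this
  rw [this]
  ring

theorem S5_int : S5 ∈ H373.intSeries ZC := by
  rw [H373.mem_intSeries]
  intro n
  simp only [S5, PowerSeries.coeff_mk]
  exact natCast_mem_ZC _

theorem Rs_int : Rs ∈ H373.intSeries ZC := by
  rw [H373.mem_intSeries]
  intro n
  simp only [Rs, PowerSeries.coeff_mk]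
  exact intCast_mem_ZC _

theorem E₄_mem_MF : (E₄ : ℍ → ℂ) ∈ MF (⊤ : Subgroup SL(2, ℤ)) 4 :=
  Fermat.Agent.S20.C0h516.mem_MF_top_iff_exists.mpr ⟨E₄, rfl⟩

theorem E₆_mem_MF : (E₆ : ℍ → ℂ) ∈ MF (⊤ : Subgroup SL(2, ℤ)) 6 :=
  Fermat.Agent.S20.C0h516.mem_MF_top_iff_exists.mpr ⟨E₆, rfl⟩

theorem qs_E₄ : qs (E₄ : ℍ → ℂ) = 1 + 240 * S3 := by
  ext m
  rw [map_add, coeff_ofNat_mul, PowerSeries.coeff_one]
  simp only [S3, PowerSeries.coeff_mk]
  have h := E_qExpansion_coeff (by norm_num : 3 ≤ 4) ⟨2, rfl⟩ m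
  have hb : bernoulli 4 = -1 / 30 := by decide +kernel
  rw [h, hb]
  by_cases hm : m = 0
  · subst hm
    simp
  · simp only [hm, if_false]
    push_cast
    norm_num

theorem qs_E₆ : qs (E₆ : ℍ → ℂ) = 1 - 504 * S5 := by
  ext m
  rw [map_sub, coeff_ofNat_mul, PowerSeries.coeff_one]
  simp only [S5, PowerSeries.coeff_mk]
  have h := E_qExpansion_coeff (by norm_num : 3 ≤ 6) ⟨3, rfl⟩ m
  have hb : bernoulli 6 = 1 / 42 := by decide +kernel
  rw [h, hb]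
  by_cases hm : m = 0
  · subst hm
    simp
  · simp only [hm, if_false]
    push_cast
    norm_num

/-! ### Evaluation at `ρ` -/

/-- Value at `ρ` of the form with `q`-series `A`, divided by `Δ(ρ)^(k/12)` (zero unless
`12 ∣ k`). -/
def evRho (ρ : ℍ) (k : ℕ) (A : PowerSeries ℂ) : ℂ :=
  if 12 ∣ k then (∑' n : ℕ, A.coeff n • 𝕢 1 ρ ^ n) / (Δ : ℍ → ℂ) ρ ^ (k / 12) else 0

theorem evRho_qs (ρ : ℍ) {k : ℕ} (hk : 12 ∣ k) {H : ℍ → ℂ} (hH : Nice H) :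
    evRho ρ k (qs H) = H ρ / (Δ : ℍ → ℂ) ρ ^ (k / 12) := by
  rw [evRho, if_pos hk, tsum_qs hH]

theorem evRho_of_not_dvd (ρ : ℍ) {k : ℕ} (hk : ¬ 12 ∣ k) (A : PowerSeries ℂ) :
    evRho ρ k A = 0 := by
  rw [evRho, if_neg hk]

theorem evRho_add (ρ : ℍ) (k : ℕ) (A B : PowerSeries ℂ) (hA : A ∈ Lk k) (hB : B ∈ Lk k) :
    evRho ρ k (A + B) = evRho ρ k A + evRho ρ k B := by
  by_cases hk : 12 ∣ k
  · obtain ⟨a, ha, rfl⟩ := hA
    obtain ⟨b, hb, rfl⟩ := hB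
    rw [← qs_add (nice_top ha) (nice_top hb), evRho_qs ρ hk (nice_add (nice_top ha) (nice_top hb)),
      evRho_qs ρ hk (nice_top ha), evRho_qs ρ hk (nice_top hb), Pi.add_apply, add_div]
  · simp [evRho_of_not_dvd ρ hk]

theorem evRho_smul (ρ : ℍ) (k : ℕ) (c : ℂ) (A : PowerSeries ℂ) (hA : A ∈ Lk k) :
    evRho ρ k (c • A) = c * evRho ρ k A := by
  by_cases hk : 12 ∣ k
  · obtain ⟨a, ha, rfl⟩ := hA
    rw [← qs_smul (nice_top ha), evRho_qs ρ hk ((nice_top ha).smul c),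
      evRho_qs ρ hk (nice_top ha), Pi.smul_apply, smul_eq_mul, mul_div_assoc]
  · simp [evRho_of_not_dvd ρ hk]

theorem evRho_E₄_mul (ρ : ℍ) (hρ : (E₄ : ℍ → ℂ) ρ = 0) (k : ℕ) (X : PowerSeries ℂ)
    (hX : X ∈ Lk k) : evRho ρ (k + 4) (qs (E₄ : ℍ → ℂ) * X) = 0 := by
  by_cases hk : 12 ∣ k + 4
  · obtain ⟨x, hx, rfl⟩ := hX
    rw [← qs_mul (nice_top E₄_mem_MF) (nice_top hx),
      evRho_qs ρ hk ((nice_top E₄_mem_MF).mul (nice_top hx)), Pi.mul_apply, hρ, zero_mul,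
      zero_div]
  · exact evRho_of_not_dvd ρ hk _

theorem evRho_int' (ρ : ℍ) (hρ : (E₄ : ℍ → ℂ) ρ = 0) (k : ℕ) (A : PowerSeries ℂ)
    (hA : A ∈ Lk k) (hint : A ∈ H373.intSeries ZC) : evRho ρ k A ∈ ZC := by
  by_cases hk : 12 ∣ k
  · obtain ⟨j, rfl⟩ := hk
    obtain ⟨a, ha, rfl⟩ := hA
    have ha' : a ∈ MF (⊤ : Subgroup SL(2, ℤ)) (12 * (j : ℤ)) := by
      have e : ((12 * j : ℕ) : ℤ) = 12 * (j : ℤ) := by push_cast; ring
      rwa [e] at ha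
    have hI : IntAll a := by
      intro n
      rw [H373.mem_intSeries] at hint
      exact exists_of_mem_ZC (hint n)
    obtain ⟨m, hm⟩ := H128.evRho_int ρ hρ j ha' hI
    rw [evRho_qs ρ ⟨j, rfl⟩ (nice_top ha), hm, Nat.mul_div_cancel_left j (by norm_num : 0 < 12),
      mul_div_assoc, div_self (pow_ne_zero _ (discriminant_ne_zero ρ)), mul_one]
    exact intCast_mem_ZC m
  · rw [evRho_of_not_dvd ρ hk]
    exact ZC.zero_mem

theorem E₆_sq_rho (ρ : ℍ) (hρ : (E₄ : ℍ → ℂ) ρ = 0) :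
    (E₆ : ℍ → ℂ) ρ ^ 2 = -1728 * (Δ : ℍ → ℂ) ρ := by
  have h := discriminant_eq_E₄_cube_sub_E₆_sq ρ
  have hρ' : E₄ ρ = 0 := hρ
  rw [hρ'] at h
  change (E₆ ρ) ^ 2 = -1728 * discriminant ρ
  rw [h]
  ring

theorem evRho_E₆_pow (ρ : ℍ) (hρ : (E₄ : ℍ → ℂ) ρ = 0) (j : ℕ) :
    evRho ρ (12 * j) (qs (E₆ : ℍ → ℂ) ^ (2 * j)) = (-1728) ^ j := by
  rw [← qs_pow (nice_top E₆_mem_MF), evRho_qs ρ ⟨j, rfl⟩ (nice_pow (nice_top E₆_mem_MF) _),
    Nat.mul_div_cancel_left j (by norm_num : 0 < 12), Pi.pow_apply, pow_mul, E₆_sq_rho ρ hρ,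
    mul_pow, mul_div_assoc, div_self (pow_ne_zero _ (discriminant_ne_zero ρ)), mul_one]

/-! ### The level data -/

/-- The concrete level data over `ℂ` with integral structure `ℤ`. -/
def levelData (p : ℕ) [hpp : Fact p.Prime] (ρ : ℍ) (hρ : (E₄ : ℍ → ℂ) ρ = 0) :
    H373.LevelData ℂ p hpp.out.ne_zero ZC where
  L := Lk
  Mp := Mpk p
  one_mem := one_mem_Mpk p
  mul_mem := fun hx hy => mul_mem_Mpk p hx hy
  lift_mem := fun hH => lift_mem_Mpk p hH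
  tr_mem := fun hx => tr_mem_Lk p hx
  E₄ := qs (E₄ : ℍ → ℂ)
  E₆ := qs (E₆ : ℍ → ℂ)
  S₃ := S3
  S₅ := S5
  R := Rs
  E₄_mem := ⟨_, E₄_mem_MF, rfl⟩
  E₆_mem := ⟨_, E₆_mem_MF, rfl⟩
  S₅_int := S5_int
  R_int := Rs_int
  E₄_eq := qs_E₄
  E₆_eq := qs_E₆
  S₃_eq := S3_eq
  ev := evRho ρ
  ev_add := evRho_add ρ
  ev_smul := evRho_smul ρ
  ev_E₄_mul := evRho_E₄_mul ρ hρ
  ev_int := evRho_int' ρ hρ
  ev_E₆_pow := evRho_E₆_pow ρ hρ

/-! ### The theorem -/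

/-- **WP U4** (exact skeleton statement).  No `G ∈ M₂(Γ₀(p))`, `p ≡ 7 mod 8`, has integral
`q`-expansion `≡ odd constant mod 8`. -/
theorem U4 (p : ℕ) [Fact p.Prime] (hp8 : p % 8 = 7) {G : ℍ → ℂ} (hG : G ∈ MF (Gamma0 p) 2)
    (s : ℤ) (hs : Odd s) (h0 : qCoeff G 0 = (s : ℂ))
    (hcong : ∀ k : ℕ, 1 ≤ k → ∃ m : ℤ, qCoeff G k = 8 * (m : ℂ)) : False := by
  have hpp : Fact p.Prime := inferInstance
  obtain ⟨ρ, hρ⟩ := H128.exists_rho
  have h8 : 8 ∣ p + 1 := by omega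
  choose! m hm using hcong
  set Hs : PowerSeries ℂ := PowerSeries.mk fun k => if k = 0 then 0 else (m k : ℂ) with hHs
  have hHint : Hs ∈ H373.intSeries ZC := by
    rw [H373.mem_intSeries]
    intro n
    simp only [hHs, PowerSeries.coeff_mk]
    split_ifs
    · exact ZC.zero_mem
    · exact intCast_mem_ZC _
  have hGs : qs G = (s : PowerSeries ℂ) + 8 * Hs := by
    ext n
    rw [map_add, coeff_ofNat_mul, coeff_qs]
    have hsC : (s : PowerSeries ℂ) = PowerSeries.C (s : ℂ) := (map_intCast (PowerSeries.C (R := ℂ)) s).symm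
    rw [hsC, PowerSeries.coeff_C]
    simp only [hHs, PowerSeries.coeff_mk]
    by_cases hn : n = 0
    · subst hn
      simp [h0]
    · simp only [hn, if_false, zero_add]
      exact hm n (Nat.one_le_iff_ne_zero.mpr hn)
  have hmem : ((qs G, -(p : PowerSeries ℂ) * H373.opU p (qs G)) : H373.Pair ℂ)
      ∈ (levelData p ρ hρ).Mp 2 := by
    refine ⟨G, hG, rfl, ?_⟩
    have h2 : ((2 : ℕ) : ℤ) = 2 := rfl
    rw [h2, H377.FR.hat_two p hG, qs_smul ((nice_Gamma0 hG).heckeU 2 p),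
      qs_heckeU (nice_Gamma0 hG) 2 hpp.out.ne_zero]
    have hpC : (p : PowerSeries ℂ) = PowerSeries.C (p : ℂ) := (map_natCast (PowerSeries.C (R := ℂ)) p).symm
    change _ = -(p : PowerSeries ℂ) * H373.opU p (qs G)
    rw [hpC, ← map_neg, PowerSeries.smul_eq_C_mul]
  exact H373.u4_core (levelData p ρ hρ) h8 two_inv_not_mem_ZC s hs (qs G) Hs hHint hGs hmem

end Fermat.Agent.S16.H136
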